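/-
S55 TOP-W55, step W6(b) / T6 (helper25): THE FINAL ASSEMBLY of the finite-level top layer.

Input (`PerLevel p S U₀`, delivered by the finite-level layer EW55/Count + Wire41/FinCoeff): for a
level `U₀` trivialising `μ_p`, every finite-dimensional `A` trivialised by `U₀` and every level
`V ≤ U₀`, with `A' = A.dualTwist (cycloChar p)` and `shaLevel S A' V = sha₁ S A' ⊓ ker (res_V)`
(helper31; `Stab.finrank_shaLevel_eq` : it has the dimension of the finite-level group
`ShaFin.sha1Fin S (mk' V) (levelRep A' V _)`):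

* `finite` : `Sha₂ S A` is finite-dimensional;
* `le`     : `dim shaLevel S A' V ≤ dim Sha₂ S A`             (identity (E): `dim Sha₂ = dim sha1Fin + defect`);
* `eq`     : if equality holds for `A = 𝔽_p[G/U₀]` at `V`, it holds for every `A` at `V`
             (`HomB (perm U₀)_V α = ⊤ ⇒ HomB A_V α = ⊤`);
* `self`   : `𝔽_p[G/U₀]` is self-dual up to the twist.

Output: `DimConclusionL p S M` (with the count plug `HilbertCountL`), hence
`Contract34.TopStatementCount` (`topStatementCount_of_perLevel`).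

The mathematics: `a(V) = dim shaLevel S M₀' V` (`M₀ = 𝔽_p[G/U₀]`) is monotone in `V` and bounded by
`dim Sha₂ M₀`, hence stabilises below some level `V₁`, where it equals `dim sha₁ S M₀'`
(`exists_level_shaLevel_eq_sha₁`); the count `dim Sha₂ M₀ ≤ dim sha₁ M₀'` forces equality below
`V₁`; hence `dim shaLevel S A' V = dim Sha₂ A` for all levels `V ≤ V₁`, and helper31's stabilisation
`Stab.sha₁_finrank_of_stable` gives `dim sha₁ S A' = dim Sha₂ S A`.
-/
import Fermat.Agent.S55.Profin15.ContractF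
import Fermat.Agent.S55.ProfinLocal31.Stab
import Fermat.Agent.S55.Wire41.SRep

set_option autoImplicit false
set_option linter.style.haveILetI false

open CategoryTheory Module groupCohomology ExtCitation
open Fermat.Agent.S55.Profin15
open Fermat.Agent.Lib.FrobeniusExists (Qb GQ)
open Fermat.Agent.S55.Contract34
open Fermat.Agent.S55.ProfinLocal31

noncomputable section

namespace Fermat.Agent.S55.FormalTop25.Final

open Fermat.Agent.S55.Profin15.Plug
open Stab ShaFin

variable (S : Finset Nat.Primes) {p : ℕ} [Fact p.Prime]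

/-! ### Finite-dimensionality and bounded stabilisation of `shaLevel` -/

/-- `shaLevel S A V` is finite-dimensional for a level `V` acting trivially on `A`. -/
theorem finiteDimensional_shaLevel (hp2 : p ≠ 2) (A : Rep.{0} (ZMod p) GQ)
    [FiniteDimensional (ZMod p) A] {V : Subgroup GQ} (hV : V ∈ (globalLevels S).levels)
    (hVA : V ≤ A.ρ.ker) : FiniteDimensional (ZMod p) ↥(shaLevel S A V) := by
  haveI := (globalLevels S).normal V hV
  haveI := (globalLevels S).finiteIndex V hV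
  haveI : Finite (GQ ⧸ V) := Subgroup.finite_quotient_of_finiteIndex
  obtain ⟨_, F, hF, hVF⟩ := hV
  have hS : IsSLevel S (QuotientGroup.mk' V) :=
    ⟨F, hF, fun s hs => (QuotientGroup.eq_one_iff s).2 (hVF ▸ hs)⟩
  let N := LevelModel.levelRep A V hVA
  haveI : FiniteDimensional (ZMod p) N := inferInstanceAs (FiniteDimensional (ZMod p) A)
  haveI : FiniteDimensional (ZMod p) (H1 N) := finite_H1 N
  have e1 := shaLevelEquiv S (LevelModel.levelIso A V hVA) V
  have hmap := map_infl₁_sha1Fin S hp2 (QuotientGroup.mk'_surjective V) hS N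
  rw [QuotientGroup.ker_mk'] at hmap
  have e2 := Submodule.equivMapOfInjective (infl₁ (QuotientGroup.mk' V) N)
    (infl₁_injective (QuotientGroup.mk'_surjective V) N) (sha1Fin S (QuotientGroup.mk' V) N)
  rw [hmap] at e2
  exact (e1.trans e2.symm).symm.finiteDimensional

/-- **Bounded stabilisation.** If the dimensions of the `shaLevel S A V`, `V ≤ U₀` a level, are
bounded, then below some level `V₁ ≤ U₀` all of them are equal to `sha₁ S A`. -/
theorem exists_level_shaLevel_eq_sha₁ (hp2 : p ≠ 2) (A : Rep.{0} (ZMod p) GQ)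
    [FiniteDimensional (ZMod p) A] {U₀ : Subgroup GQ} (hU₀ : U₀ ∈ (globalLevels S).levels)
    (hU₀A : U₀ ≤ A.ρ.ker) (B : ℕ)
    (hB : ∀ V ∈ (globalLevels S).levels, V ≤ U₀ → finrank (ZMod p) ↥(shaLevel S A V) ≤ B) :
    ∃ V₁ ∈ (globalLevels S).levels, V₁ ≤ U₀ ∧
      ∀ V ∈ (globalLevels S).levels, V ≤ V₁ → shaLevel S A V = sha₁ S A := by
  classical
  -- the set of dimensions reached below `U₀`
  let T : Set ℕ := {n | ∃ V ∈ (globalLevels S).levels, V ≤ U₀ ∧
    finrank (ZMod p) ↥(shaLevel S A V) = n}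
  have hTne : T.Nonempty := ⟨_, U₀, hU₀, le_rfl, rfl⟩
  have hTbdd : BddAbove T := ⟨B, by rintro n ⟨V, hV, hVU, rfl⟩; exact hB V hV hVU⟩
  obtain ⟨V₁, hV₁, hV₁U, hmax⟩ := Nat.sSup_mem hTne hTbdd
  have hstab : ∀ V ∈ (globalLevels S).levels, V ≤ V₁ → shaLevel S A V = shaLevel S A V₁ := by
    intro V hV hVV₁
    haveI := finiteDimensional_shaLevel S hp2 A hV ((hVV₁.trans hV₁U).trans hU₀A)
    symm
    apply Submodule.eq_of_le_of_finrank_le (shaLevel_mono S A hVV₁)
    rw [hmax]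
    exact le_csSup hTbdd ⟨V, hV, hVV₁.trans hV₁U, rfl⟩
  refine ⟨V₁, hV₁, hV₁U, fun V hV hVV₁ => ?_⟩
  apply le_antisymm (shaLevel_le S A V)
  intro x hx
  obtain ⟨W, hW, hWV, hxW⟩ := exists_level_mem_shaLevel S A hx hV
  rw [hstab V hV hVV₁, ← hstab W hW (hWV.trans hVV₁)]
  exact hxW

/-! ### The numerical core -/

/-- **The numerical core of the final assembly.** `M₀` plays the role of `𝔽_p[G/U₀]`, `A₀` of its
twisted dual, `A` of the twisted dual of `M`. -/
theorem core (hp2 : p ≠ 2) {U₀ : Subgroup GQ} (hU₀ : U₀ ∈ (globalLevels S).levels)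
    (A₀ A : Rep.{0} (ZMod p) GQ) [FiniteDimensional (ZMod p) A₀] [FiniteDimensional (ZMod p) A]
    (hU₀A₀ : U₀ ≤ A₀.ρ.ker) (hU₀A : U₀ ≤ A.ρ.ker) (s₀ s : ℕ)
    (hle₀ : ∀ V ∈ (globalLevels S).levels, V ≤ U₀ → finrank (ZMod p) ↥(shaLevel S A₀ V) ≤ s₀)
    (hHilb : FiniteDimensional (ZMod p) ↥(sha₁ S A₀) → s₀ ≤ finrank (ZMod p) ↥(sha₁ S A₀))
    (heq : ∀ V ∈ (globalLevels S).levels, V ≤ U₀ →
      finrank (ZMod p) ↥(shaLevel S A₀ V) = s₀ → finrank (ZMod p) ↥(shaLevel S A V) = s) :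
    FiniteDimensional (ZMod p) ↥(sha₁ S A) ∧ finrank (ZMod p) ↥(sha₁ S A) = s := by
  obtain ⟨V₁, hV₁, hV₁U, hstab⟩ :=
    exists_level_shaLevel_eq_sha₁ S hp2 A₀ hU₀ hU₀A₀ s₀ hle₀
  -- `sha₁ S A₀` is finite-dimensional
  have hfin₀ : FiniteDimensional (ZMod p) ↥(sha₁ S A₀) := by
    rw [← hstab V₁ hV₁ le_rfl]
    exact finiteDimensional_shaLevel S hp2 A₀ hV₁ (hV₁U.trans hU₀A₀)
  have hs₀ := hHilb hfin₀
  -- below `V₁` the dimension of `shaLevel S A₀ V` is `s₀`
  have h₀ : ∀ V ∈ (globalLevels S).levels, V ≤ V₁ →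
      finrank (ZMod p) ↥(shaLevel S A₀ V) = s₀ := by
    intro V hV hVV₁
    apply le_antisymm (hle₀ V hV (hVV₁.trans hV₁U))
    rw [hstab V hV hVV₁]
    exact hs₀
  refine sha₁_finrank_of_stable S A hV₁ s fun V hV hVV₁ => ?_
  exact ⟨finiteDimensional_shaLevel S hp2 A hV ((hVV₁.trans hV₁U).trans hU₀A),
    heq V hV (hVV₁.trans hV₁U) (h₀ V hV hVV₁)⟩

/-! ### The interface with the finite-level layer -/

/-- What the finite-level layer delivers for a level `U₀` trivialising `μ_p`. -/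
structure PerLevel (p : ℕ) [Fact p.Prime] (S : Finset Nat.Primes) (U₀ : Subgroup GQ) : Prop where
  /-- `𝔽_p[G/U₀]` is self-dual up to the twist -/
  self : Nonempty ((perm p U₀).dualTwist (cycloChar p) ≅ perm p U₀)
  /-- `Sha₂` is finite-dimensional -/
  finite : ∀ (A : Rep.{0} (ZMod p) GQ) [FiniteDimensional (ZMod p) A], (∀ s ∈ U₀, A.ρ s = 1) →
    Module.Finite (ZMod p) ↥(Sha₂ S A)
  /-- the inequality half of the per-level identity (E) -/
  le : ∀ (A : Rep.{0} (ZMod p) GQ) [FiniteDimensional (ZMod p) A], (∀ s ∈ U₀, A.ρ s = 1) →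
    ∀ V ∈ (globalLevels S).levels, V ≤ U₀ →
      finrank (ZMod p) ↥(shaLevel S (A.dualTwist (cycloChar p)) V) ≤ finrank (ZMod p) ↥(Sha₂ S A)
  /-- no defect for `𝔽_p[G/U₀]` at `V` implies no defect for `A` at `V` -/
  eq : ∀ (A : Rep.{0} (ZMod p) GQ) [FiniteDimensional (ZMod p) A], (∀ s ∈ U₀, A.ρ s = 1) →
    ∀ V ∈ (globalLevels S).levels, V ≤ U₀ →
      finrank (ZMod p) ↥(shaLevel S ((perm p U₀).dualTwist (cycloChar p)) V) =
        finrank (ZMod p) ↥(Sha₂ S (perm p U₀)) →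
      finrank (ZMod p) ↥(shaLevel S (A.dualTwist (cycloChar p)) V) =
        finrank (ZMod p) ↥(Sha₂ S A)

/-- The defect form of the interface: `dim Sha₂ S A = dim shaLevel S A' V + d A V` and
`d 𝔽_p[G/U₀] V = 0 → d A V = 0`. -/
theorem PerLevel.of_defect {U₀ : Subgroup GQ}
    (self : Nonempty ((perm p U₀).dualTwist (cycloChar p) ≅ perm p U₀))
    (finite : ∀ (A : Rep.{0} (ZMod p) GQ) [FiniteDimensional (ZMod p) A],
      (∀ s ∈ U₀, A.ρ s = 1) → Module.Finite (ZMod p) ↥(Sha₂ S A))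
    (d : Rep.{0} (ZMod p) GQ → Subgroup GQ → ℕ)
    (hE : ∀ (A : Rep.{0} (ZMod p) GQ) [FiniteDimensional (ZMod p) A], (∀ s ∈ U₀, A.ρ s = 1) →
      ∀ V ∈ (globalLevels S).levels, V ≤ U₀ →
        finrank (ZMod p) ↥(Sha₂ S A) =
          finrank (ZMod p) ↥(shaLevel S (A.dualTwist (cycloChar p)) V) + d A V)
    (hF : ∀ (A : Rep.{0} (ZMod p) GQ) [FiniteDimensional (ZMod p) A], (∀ s ∈ U₀, A.ρ s = 1) →
      ∀ V ∈ (globalLevels S).levels, V ≤ U₀ → d (perm p U₀) V = 0 → d A V = 0)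
    (hperm : FiniteDimensional (ZMod p) (perm p U₀)) (hpermU₀ : ∀ s ∈ U₀, (perm p U₀).ρ s = 1) :
    PerLevel p S U₀ where
  self := self
  finite := finite
  le A _ hA V hV hVU := by
    have := hE A hA V hV hVU
    omega
  eq A _ hA V hV hVU h0 := by
    have h1 := hE (perm p U₀) hpermU₀ V hV hVU
    have h2 := hE A hA V hV hVU
    have h3 := hF A hA V hV hVU (by omega)
    omega

/-! ### Permutation modules and twisted duals -/

/-- `𝔽_p[G/U]` is finite-dimensional for `U` of finite index -/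
theorem finiteDimensional_perm (p : ℕ) [Fact p.Prime] (U : Subgroup GQ) [U.FiniteIndex] :
    FiniteDimensional (ZMod p) (perm p U) := by
  haveI : Finite (GQ ⧸ U) := Subgroup.finite_quotient_of_finiteIndex
  exact inferInstanceAs (FiniteDimensional (ZMod p) (MonoidAlgebra (ZMod p) (GQ ⧸ U)))

/-- a normal subgroup `U` acts trivially on `𝔽_p[G/U]` -/
theorem perm_ρ_eq_one (p : ℕ) [Fact p.Prime] (U : Subgroup GQ) [U.Normal] (s : GQ) (hs : s ∈ U) :
    (perm p U).ρ s = 1 := by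
  refine LinearMap.ext fun a => ?_
  induction a using MonoidAlgebra.induction_linear with
  | zero => simp
  | add x y hx hy => rw [map_add, hx, hy, map_add]
  | single x r =>
    show Representation.ofMulAction _ _ _ s (MonoidAlgebra.single x r) = MonoidAlgebra.single x r
    rw [Representation.ofMulAction_single]
    congr 1
    induction x using QuotientGroup.induction_on with | H g =>
    show ((s * g : GQ) : GQ ⧸ U) = (g : GQ ⧸ U)
    rw [QuotientGroup.eq]
    have : (s * g)⁻¹ * g = g⁻¹ * s⁻¹ * g := by group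
    rw [this]
    have h := ‹U.Normal›.conj_mem s⁻¹ (U.inv_mem hs) g⁻¹
    simpa using h

/-- the twisted dual is trivialised by a subgroup trivialising `A` and `μ_p` -/
theorem dualTwist_ρ_eq_one (A : Rep.{0} (ZMod p) GQ) {s : GQ} (hA : A.ρ s = 1)
    (hμ : (mu p).ρ s = 1) : (A.dualTwist (cycloChar p)).ρ s = 1 := by
  have hχ : ((cycloChar p s : (ZMod p)ˣ) : ZMod p) = 1 := by
    have h1 := LinearMap.congr_fun hμ (1 : ZMod p)
    have h2 : (mu p).ρ s (1 : ZMod p) = ((cycloChar p s : (ZMod p)ˣ) : ZMod p) • (1 : ZMod p) := rfl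
    rw [h2] at h1
    simpa using h1
  have hA' : A.ρ s⁻¹ = 1 := by
    have h1 : A.ρ s⁻¹ * A.ρ s = 1 := by rw [← map_mul, inv_mul_cancel, map_one]
    rwa [hA, mul_one] at h1
  refine LinearMap.ext fun f => ?_
  rw [Rep.dualTwist_ρ_apply, hχ, one_smul, hA']
  rfl

/-! ### The conclusion -/

/-- **Final assembly for one module.** -/
theorem dimConclusionL_of_perLevel (hp2 : p ≠ 2) (hHilb : HilbertCountL p S)
    {U₀ : Subgroup GQ} (hU₀ : U₀ ∈ (globalLevels S).levels) (hμ : ∀ s ∈ U₀, (mu p).ρ s = 1)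
    (hPL : PerLevel p S U₀) (M : Rep.{0} (ZMod p) GQ) [FiniteDimensional (ZMod p) M]
    (hM : ∀ s ∈ U₀, M.ρ s = 1) : DimConclusionL p S M := by
  haveI := (globalLevels S).normal U₀ hU₀
  haveI := (globalLevels S).finiteIndex U₀ hU₀
  haveI := finiteDimensional_perm p U₀
  have hperm : ∀ s ∈ U₀, (perm p U₀).ρ s = 1 := perm_ρ_eq_one p U₀
  obtain ⟨e⟩ := hPL.self
  obtain ⟨hfinH, hleH⟩ := hHilb U₀ hU₀ hμ
  -- the count plug, read on the twisted dual of the permutation module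
  have hH : FiniteDimensional (ZMod p) ↥(sha₁ S ((perm p U₀).dualTwist (cycloChar p))) →
      finrank (ZMod p) ↥(Sha₂ S (perm p U₀)) ≤
        finrank (ZMod p) ↥(sha₁ S ((perm p U₀).dualTwist (cycloChar p))) := by
    intro _
    rw [(ShaIso.sha₁Equiv S e).finrank_eq, ← (sha₁Equiv S (perm p U₀)).finrank_eq]
    exact hleH
  have hker : ∀ (A : Rep.{0} (ZMod p) GQ), (∀ s ∈ U₀, A.ρ s = 1) →
      U₀ ≤ (A.dualTwist (cycloChar p)).ρ.ker := fun A hA s hs =>
    MonoidHom.mem_ker.2 (dualTwist_ρ_eq_one A (hA s hs) (hμ s hs))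
  obtain ⟨h1, h2⟩ := core S hp2 hU₀ ((perm p U₀).dualTwist (cycloChar p))
    (M.dualTwist (cycloChar p)) (hker _ hperm) (hker _ hM)
    (finrank (ZMod p) ↥(Sha₂ S (perm p U₀))) (finrank (ZMod p) ↥(Sha₂ S M))
    (fun V hV hVU => hPL.le (perm p U₀) hperm V hV hVU) hH
    (fun V hV hVU h => hPL.eq M hM V hV hVU h)
  haveI := h1
  refine ⟨(sha₁Equiv S (M.dualTwist (cycloChar p))).symm.finiteDimensional, hPL.finite M hM, ?_⟩
  rw [(sha₁Equiv S (M.dualTwist (cycloChar p))).finrank_eq]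
  exact h2

/-- **The top statement (count form) from the per-level interface.** -/
theorem topStatementCount_of_perLevel
    (H : ∀ (p : ℕ) [Fact p.Prime], p ≠ 2 → ∀ S : Finset Nat.Primes, pPrime p ∈ S →
      PlugsCountL p S → ∀ U₀ ∈ (globalLevels S).levels, (∀ s ∈ U₀, (mu p).ρ s = 1) →
        PerLevel p S U₀) : TopStatementCount := by
  refine topStatementCount_of_level fun p _ hp2 S hpS hplugs M _ hM => ?_
  obtain ⟨U, hU, hUM⟩ := hM
  obtain ⟨U', hU', hU'μ⟩ := Wire41.SRep.isSRep_mu (p := p) (S := S) hpS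
  obtain ⟨U₀, hU₀, hle⟩ := (globalLevels S).directed U hU U' hU'
  have hμ : ∀ s ∈ U₀, (mu p).ρ s = 1 := fun s hs => hU'μ s (hle.trans inf_le_right hs)
  exact dimConclusionL_of_perLevel S hp2 hplugs.2.2.2.2.2 hU₀ hμ
    (H p hp2 S hpS hplugs U₀ hU₀ hμ) M fun s hs => hUM s (hle.trans inf_le_left hs)

end Fermat.Agent.S55.FormalTop25.Final
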