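/-
S55 TOP-W55, step W6(b) (helper25): THE END OF W55 on helper55's seam `EW55.LevelData`.

`topStatementCount_of_levelData` : if for all odd `p` and all `S ∋ p` the plugs (count form, level
cohomology) give

* `LevelData.Statement p S`  (helper55: per-level data `I`, `α`, (E), `finite_hom`, `count`, `persist`),
* `W4a p S`  (coefficients: `dim ShaFin.sha1Fin S (mk' V) (M')_V = dim FormalPT.sha1Fin D M_V μ_V`),
* `W4b p S`  (`𝔽_p[G/U]` is self-dual up to the twist when `μ_p` is trivial on `U`),

then `Contract34.TopStatementCount` holds.  `W4a`, `W4b` are stated LITERALLY as in helper55's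
report #2237.  Everything else (the level `U₀`, bounded stabilisation, the count plug, transport
to `sha₁`/`sha₂`) is in `FormalTop25/Final.lean`.
-/
import Fermat.Agent.S55.FormalTop25.Final
import Fermat.Agent.S55.EW55.LevelData

set_option autoImplicit false
set_option linter.style.haveILetI false

open CategoryTheory Module groupCohomology ExtCitation
open Fermat.Agent.S55.Profin15
open Fermat.Agent.Lib.FrobeniusExists (Qb GQ)
open Fermat.Agent.S55.Contract34
open Fermat.Agent.S55.ProfinLocal31
open Fermat.Agent.S55.EW55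

noncomputable section

namespace Fermat.Agent.S55.FormalTop25.OfLevelData

open Fermat.Agent.S55.Profin15.Plug
open Stab ShaFin LevelModel
open Fermat.Agent.S55.EW55.Inst Fermat.Agent.S55.EW55.LevelData

/-- **(W4a)** the coefficient identity, literally as in report #2237. -/
def W4a (p : ℕ) [Fact p.Prime] (S : Finset Nat.Primes) : Prop :=
  ∀ (V : Subgroup GQ) (hV : V ∈ (globalLevels S).levels) (hμ : V ≤ (mu p).ρ.ker)
    (M : Rep.{0} (ZMod p) GQ) [FiniteDimensional (ZMod p) M] (hM : V ≤ M.ρ.ker)
    (hM' : V ≤ (M.dualTwist (cycloChar p)).ρ.ker),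
    haveI := (globalLevels S).normal V hV
    finrank (ZMod p) ↥(ShaFin.sha1Fin S (QuotientGroup.mk' V)
      (levelRep (M.dualTwist (cycloChar p)) V hM')) =
    finrank (ZMod p) ↥(FormalPT.sha1Fin (DS S V) (levelRep M V hM) (muV V hμ))

/-- **(W4b)** self-duality of the permutation modules, literally as in report #2237. -/
def W4b (p : ℕ) [Fact p.Prime] (S : Finset Nat.Primes) : Prop :=
  ∀ U ∈ (globalLevels S).levels, (∀ s ∈ U, (mu p).ρ s = 1) →
    Nonempty ((perm p U).dualTwist (cycloChar p) ≅ perm p U)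

variable {p : ℕ} [Fact p.Prime] (S : Finset Nat.Primes)

/-- a subspace whose quotient has dimension `0` is everything (finite-dimensional case) -/
lemma eq_top_of_finrank_quotient_eq_zero {k : Type*} [Field k] {X : Type*} [AddCommGroup X]
    [Module k X] [Module.Finite k X] (W : Submodule k X) (h : finrank k (X ⧸ W) = 0) : W = ⊤ := by
  have h1 := Submodule.finrank_quotient_add_finrank W
  rw [h, zero_add] at h1
  exact Submodule.eq_top_of_finrank_eq h1

lemma finrank_quotient_top {k : Type*} [Field k] {X : Type*} [AddCommGroup X]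
    [Module k X] {W : Submodule k X} (h : W = ⊤) : finrank k (X ⧸ W) = 0 := by
  rw [h]
  exact Module.finrank_zero_of_subsingleton

/-- **`Final.PerLevel` from helper55's seam.** -/
theorem perLevel_of_levelData (hp2 : p ≠ 2) (hLD : LevelData.Statement p S) (w4a : W4a p S)
    (w4b : W4b p S) {U₀ : Subgroup GQ} (hU₀ : U₀ ∈ (globalLevels S).levels)
    (hμ : ∀ s ∈ U₀, (mu p).ρ s = 1) : Final.PerLevel p S U₀ := by
  haveI := (globalLevels S).normal U₀ hU₀
  haveI := (globalLevels S).finiteIndex U₀ hU₀
  haveI := Final.finiteDimensional_perm p U₀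
  have hperm : ∀ s ∈ U₀, (perm p U₀).ρ s = 1 := Final.perm_ρ_eq_one p U₀
  have hker : ∀ {A : Rep.{0} (ZMod p) GQ} {V : Subgroup GQ}, V ≤ U₀ →
      (∀ s ∈ U₀, A.ρ s = 1) → V ≤ A.ρ.ker :=
    fun hVU hA s hs => MonoidHom.mem_ker.2 (hA s (hVU hs))
  have hker' : ∀ {A : Rep.{0} (ZMod p) GQ} {V : Subgroup GQ}, V ≤ U₀ →
      (∀ s ∈ U₀, A.ρ s = 1) → V ≤ (A.dualTwist (cycloChar p)).ρ.ker :=
    fun hVU hA s hs =>
      MonoidHom.mem_ker.2 (Final.dualTwist_ρ_eq_one _ (hA s (hVU hs)) (hμ s (hVU hs)))
  -- dimension of `shaLevel` in `FormalPT` terms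
  have hsha : ∀ (V : Subgroup GQ) (hV : V ∈ (globalLevels S).levels) (hVU : V ≤ U₀)
      (A : Rep.{0} (ZMod p) GQ) [FiniteDimensional (ZMod p) A] (hA : ∀ s ∈ U₀, A.ρ s = 1),
      haveI := (globalLevels S).normal V hV
      finrank (ZMod p) ↥(shaLevel S (A.dualTwist (cycloChar p)) V) =
        finrank (ZMod p) ↥(FormalPT.sha1Fin (DS S V) (levelRep A V (hker hVU hA))
          (muV V (hker hVU hμ))) := by
    intro V hV hVU A _ hA
    haveI := (globalLevels S).normal V hV
    rw [← w4a V hV (hker hVU hμ) A (hker hVU hA) (hker' hVU hA)]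
    exact finrank_shaLevel_eq S hp2 (A.dualTwist (cycloChar p)) hV _
  refine ⟨w4b U₀ hU₀ hμ, fun A _ hA => ?_, fun A _ hA V hV hVU => ?_,
    fun A _ hA V hV hVU h0 => ?_⟩
  · obtain ⟨dat⟩ := hLD U₀ hU₀ (hker le_rfl hμ)
    haveI := (dat.count A (hker le_rfl hA)).1
    exact (sha₂Equiv S A).finiteDimensional
  · haveI := (globalLevels S).normal V hV
    obtain ⟨dat⟩ := hLD V hV (hker hVU hμ)
    rw [hsha V hV hVU A hA, ← (sha₂Equiv S A).finrank_eq, (dat.count A (hker hVU hA)).2]
    exact Nat.le_add_right _ _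
  · haveI := (globalLevels S).normal V hV
    obtain ⟨dat⟩ := hLD V hV (hker hVU hμ)
    rw [hsha V hV hVU (perm p U₀) hperm, ← (sha₂Equiv S (perm p U₀)).finrank_eq] at h0
    rw [hsha V hV hVU A hA, ← (sha₂Equiv S A).finrank_eq]
    haveI : Module.Finite (ZMod p) (levelRep (perm p U₀) V (le_ker_perm V hVU)) :=
      inferInstanceAs (Module.Finite (ZMod p) (perm p U₀))
    haveI := dat.finite_hom (levelRep (perm p U₀) V (le_ker_perm V hVU))
    -- no defect for the permutation module
    have hd0 : finrank (ZMod p) ((levelRep (perm p U₀) V (le_ker_perm V hVU) ⟶ dat.I) ⧸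
        FormalPT.HomB (levelRep (perm p U₀) V (le_ker_perm V hVU)) dat.α) = 0 := by
      have := (dat.count (perm p U₀) (le_ker_perm V hVU)).2
      omega
    have htop := eq_top_of_finrank_quotient_eq_zero _ hd0
    have htopA := dat.persist U₀ hVU htop A fun s hs => MonoidHom.mem_ker.2 (hA s hs)
    have hdA := finrank_quotient_top (k := ZMod p) htopA
    have := (dat.count A (hker hVU hA)).2
    omega

/-- **THE END OF W55**: the top statement (count form) from helper55's seam, (W4a) and (W4b). -/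
theorem topStatementCount_of_levelData
    (H : ∀ (p : ℕ) [Fact p.Prime], p ≠ 2 → ∀ S : Finset Nat.Primes, pPrime p ∈ S →
      PlugsCountL p S → LevelData.Statement p S ∧ W4a p S ∧ W4b p S) : TopStatementCount :=
  Final.topStatementCount_of_perLevel fun p _ hp2 S hpS hplugs U₀ hU₀ hμ =>
    perLevel_of_levelData S hp2 (H p hp2 S hpS hplugs).1 (H p hp2 S hpS hplugs).2.1
      (H p hp2 S hpS hplugs).2.2 hU₀ hμ

/-- The same with the plugs in the literal `Contract34` form. -/
theorem topStatementCount_of_levelData'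
    (H : ∀ (p : ℕ) [Fact p.Prime], p ≠ 2 → ∀ S : Finset Nat.Primes, pPrime p ∈ S →
      PlugsCount p S → LevelData.Statement p S ∧ W4a p S ∧ W4b p S) : TopStatementCount :=
  topStatementCount_of_levelData fun p _ hp2 S hpS hplugs =>
    H p hp2 S hpS ((plugsCount_iff p S).2 hplugs)

end Fermat.Agent.S55.FormalTop25.OfLevelData
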