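/-
S55 TOP-W55 (helper25): THE TOP OF ROUTE W55 WITH ONE INPUT LEFT.

`topStatementCount_of_statement` : `Contract34.TopStatementCount` follows from
`EW55.LevelData.Statement p S` (for `p` odd, `p ∈ S`, under the plugs).  (W4a) is helper41's
`Wire41.W4a.w4a`, (W4b) is helper65's `FormalTop65.w4b`; the stabilisation/assembly is
`FormalTop25.OfLevelData` + `FormalTop25.Final`.
`dimStatement_of_statement` : with the arithmetic statement and helper22's `SRepStatement`,
`Spine15.DimStatement`.
-/
import Fermat.Agent.S55.FormalTop25.OfLevelData
import Fermat.Agent.S55.Wire41.W4a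
import Fermat.Agent.S55.FormalTop65.Perm

set_option autoImplicit false

open ExtCitation
open Fermat.Agent.S55.Contract34
open Fermat.Agent.S55.EW55

namespace Fermat.Agent.S55.FormalTop25.W55Top

/-- **The top of route W55**, plugs in the literal `Contract34` form. -/
theorem topStatementCount_of_statement
    (H : ∀ (p : ℕ) [Fact p.Prime], p ≠ 2 → ∀ S : Finset Nat.Primes, pPrime p ∈ S →
      PlugsCount p S → LevelData.Statement p S) : TopStatementCount :=
  OfLevelData.topStatementCount_of_levelData' fun p _ hp2 S hpS hplugs =>
    ⟨H p hp2 S hpS hplugs, Wire41.W4a.w4a p S, FormalTop65.w4b p S⟩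

/-- The same with the plugs in level cohomology. -/
theorem topStatementCount_of_statementL
    (H : ∀ (p : ℕ) [Fact p.Prime], p ≠ 2 → ∀ S : Finset Nat.Primes, pPrime p ∈ S →
      Profin15.Plug.PlugsCountL p S → LevelData.Statement p S) : TopStatementCount :=
  OfLevelData.topStatementCount_of_levelData fun p _ hp2 S hpS hplugs =>
    ⟨H p hp2 S hpS hplugs, Wire41.W4a.w4a p S, FormalTop65.w4b p S⟩

/-- Route W55 into the spine: the per-level statement, the arithmetic statement (count form) and
`SRepStatement` give `Spine15.DimStatement`. -/
theorem dimStatement_of_statement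
    (H : ∀ (p : ℕ) [Fact p.Prime], p ≠ 2 → ∀ S : Finset Nat.Primes, pPrime p ∈ S →
      PlugsCount p S → LevelData.Statement p S)
    (hArith : ArithStatementCount) (hRep : SRepStatement) : Spine15.DimStatement :=
  dimStatement_of_contractCount (topStatementCount_of_statement H) hArith hRep

end Fermat.Agent.S55.FormalTop25.W55Top
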