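/-
S55 TOP-W55, step W6(b) (helper25): the reduction of hypothesis (F) `HomB M α = ⊤` of `FormalPT`
to ONE module, and the defect `dim (Hom_Γ(M, I) / HomB M α)`.

* `homB_eq_top_of_gen` : if `P` has an element `x₀` such that every `m : M` is the image of `x₀`
  under some morphism `P ⟶ M`, then `HomB P α = ⊤ → HomB M α = ⊤`;
* `finite_hom` : `Hom_Γ(M, I)` is finite-dimensional for finite-dimensional `M`, `I`;
* `finrank_quot_homB_eq_zero_iff` : the defect vanishes iff `HomB M α = ⊤`.
Mathlib + `EW55/FormalPT` only.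
-/
import Fermat.Agent.S55.EW55.FormalPT

set_option autoImplicit false

open CategoryTheory groupCohomology

noncomputable section

namespace Fermat.Agent.S55.FormalTop25.HomBTop

open Fermat.Agent.S55.EW55 Fermat.Agent.S55.EW55.FormalPT

variable {k : Type} [Field k] {Γ : Type} [Group Γ] {ι : Type} [Fintype ι]
  {D : ι → Subgroup Γ} {Z I : Rep.{0} k Γ} (α : ∀ v, CoindZ D Z v ⟶ I)

lemma mem_homB_iff (M : Rep.{0} k Γ) (φ : M ⟶ I) :
    φ ∈ HomB M α ↔ ∀ m, φ.hom m ∈ LinearMap.range (S α) := Iff.rfl

/-- **Reduction of (F) to a generator.** -/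
theorem homB_eq_top_of_gen {P M : Rep.{0} k Γ} (x₀ : P)
    (hgen : ∀ m : M, ∃ g : P ⟶ M, g.hom x₀ = m) (hP : HomB P α = ⊤) : HomB M α = ⊤ := by
  rw [eq_top_iff]
  intro φ _ m
  obtain ⟨g, rfl⟩ := hgen m
  have h : g ≫ φ ∈ HomB P α := by rw [hP]; exact Submodule.mem_top
  exact h x₀

/-- the underlying linear map of a morphism, linearly -/
def homToLin (M N : Rep.{0} k Γ) : (M ⟶ N) →ₗ[k] (M →ₗ[k] N) where
  toFun f := f.hom.toLinearMap
  map_add' _ _ := rfl
  map_smul' _ _ := rfl

lemma homToLin_injective (M N : Rep.{0} k Γ) : Function.Injective (homToLin M N) := by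
  intro f g h
  apply Rep.hom_ext
  apply Representation.IntertwiningMap.ext
  exact h

/-- `Hom_Γ(M, N)` is finite-dimensional for finite-dimensional `M`, `N`. -/
theorem finite_hom (M N : Rep.{0} k Γ) [Module.Finite k M] [Module.Finite k N] :
    Module.Finite k (M ⟶ N) :=
  Module.Finite.of_injective (homToLin M N) (homToLin_injective M N)

/-- **The defect vanishes iff (F) holds.** -/
theorem finrank_quot_homB_eq_zero_iff (M : Rep.{0} k Γ) [Module.Finite k M] [Module.Finite k I] :
    Module.finrank k ((M ⟶ I) ⧸ HomB M α) = 0 ↔ HomB M α = ⊤ := by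
  have := finite_hom M I
  constructor
  · intro h
    have h1 := Submodule.finrank_quotient_add_finrank (HomB M α)
    rw [h, zero_add] at h1
    exact Submodule.eq_top_of_finrank_eq h1
  · intro h
    rw [h]
    exact Module.finrank_zero_of_subsingleton

end Fermat.Agent.S55.FormalTop25.HomBTop
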