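/-
S55 TOP-W55, step W6(b) (helper25): THE BRIDGE from the finite-level identity (E) of helper55's
`FormalPT` world to the interface `Final.PerLevel`.

For a level `V ≤ U₀` (`Γ = G_ℚ ⧸ V`, `D q = ShaFin.decompImage (mk' V) q`, `Z = levelRep (mu p) V _`):

* `LevelIdentity p S U₀ V` : there are a finite-dimensional `I : Rep (ZMod p) Γ` and
  `α : ∀ q, CoindZ D Z q ⟶ I` such that for every finite-dimensional `A` trivialised by `U₀`,
  `Sha₂ S A` is finite-dimensional and
  `dim Sha₂ S A = dim FormalPT.sha1Fin D A_V Z + dim (Hom_Γ(A_V, I) ⧸ HomB A_V α)`;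
* `CoeffIdentity p S U₀ V` : `dim ShaFin.sha1Fin S (mk' V) (A')_V = dim FormalPT.sha1Fin D A_V Z`
  for the twisted dual `A' = A.dualTwist (cycloChar p)`;
* `perLevel_of_identities` : these two for all levels `V ≤ U₀`, and the self-duality of
  `𝔽_p[G/U₀]`, give `Final.PerLevel p S U₀`; hence (`topStatementCount_of_identities`)
  `Contract34.TopStatementCount`.

The reduction of `HomB = ⊤` from `A` to `𝔽_p[G/U₀]` (`orbitHom`, `levelHom`, `exists_levelHom`) is
done here.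
-/
import Fermat.Agent.S55.FormalTop25.Final
import Fermat.Agent.S55.FormalTop25.HomBTop

set_option autoImplicit false
set_option linter.style.haveILetI false

open CategoryTheory Module groupCohomology ExtCitation
open Fermat.Agent.S55.Profin15
open Fermat.Agent.Lib.FrobeniusExists (Qb GQ)
open Fermat.Agent.S55.Contract34
open Fermat.Agent.S55.ProfinLocal31
open Fermat.Agent.S55.EW55

noncomputable section

namespace Fermat.Agent.S55.FormalTop25.Bridge

open Fermat.Agent.S55.Profin15.Plug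
open Stab ShaFin LevelModel

variable {p : ℕ} [Fact p.Prime]

/-! ### Orbit maps out of the permutation module -/

section Orbit

variable (A : Rep.{0} (ZMod p) GQ) (U₀ : Subgroup GQ)

/-- `gU₀ ↦ g • m` for `m` fixed by `U₀` -/
def orbitFun (m : A) (hm : ∀ s ∈ U₀, A.ρ s m = m) : GQ ⧸ U₀ → A := fun x =>
  Quotient.liftOn' x (fun g => A.ρ g m) (by
    intro a b hab
    rw [QuotientGroup.leftRel_apply] at hab
    show A.ρ a m = A.ρ b m
    have hb : b = a * (a⁻¹ * b) := by group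
    rw [hb, map_mul, Module.End.mul_apply, hm _ hab])

lemma orbitFun_mk (m : A) (hm : ∀ s ∈ U₀, A.ρ s m = m) (g : GQ) :
    orbitFun A U₀ m hm (g : GQ ⧸ U₀) = A.ρ g m := rfl

/-- the linear map `𝔽_p[G/U₀] → A`, `δ_{gU₀} ↦ g • m` -/
def orbitLin (m : A) (hm : ∀ s ∈ U₀, A.ρ s m = m) : perm p U₀ →ₗ[ZMod p] A :=
  (MonoidAlgebra.basis (GQ ⧸ U₀) (ZMod p)).constr (ZMod p) (orbitFun A U₀ m hm)

lemma orbitLin_single (m : A) (hm : ∀ s ∈ U₀, A.ρ s m = m) (g : GQ) (r : ZMod p) :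
    orbitLin A U₀ m hm (MonoidAlgebra.single (g : GQ ⧸ U₀) r) = r • A.ρ g m := by
  have h1 : (MonoidAlgebra.single (g : GQ ⧸ U₀) r : MonoidAlgebra (ZMod p) (GQ ⧸ U₀)) =
      r • MonoidAlgebra.basis (GQ ⧸ U₀) (ZMod p) (g : GQ ⧸ U₀) := by
    rw [MonoidAlgebra.basis_apply, MonoidAlgebra.smul_single, smul_eq_mul, mul_one]
  rw [h1, map_smul, orbitLin, Basis.constr_basis, orbitFun_mk]

/-- the morphism `𝔽_p[G/U₀] ⟶ A`, `δ_{gU₀} ↦ g • m` -/
def orbitHom (m : A) (hm : ∀ s ∈ U₀, A.ρ s m = m) : perm p U₀ ⟶ A :=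
  Rep.ofHom (ρ := (perm p U₀).ρ) (σ := A.ρ) ⟨orbitLin A U₀ m hm, fun h => by
    refine LinearMap.ext fun a => ?_
    induction a using MonoidAlgebra.induction_linear with
    | zero => simp
    | add x y hx hy => rw [map_add, hx, hy, map_add]
    | single x r =>
      induction x using QuotientGroup.induction_on with | H g =>
      show orbitLin A U₀ m hm (Representation.ofMulAction _ _ _ h
          (MonoidAlgebra.single (g : GQ ⧸ U₀) r)) =
        A.ρ h (orbitLin A U₀ m hm (MonoidAlgebra.single (g : GQ ⧸ U₀) r))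
      rw [Representation.ofMulAction_single]
      have hsm : h • (g : GQ ⧸ U₀) = ((h * g : GQ) : GQ ⧸ U₀) := rfl
      rw [hsm, orbitLin_single, orbitLin_single, map_smul, map_mul, Module.End.mul_apply]⟩

lemma orbitHom_apply_one (m : A) (hm : ∀ s ∈ U₀, A.ρ s m = m) :
    (orbitHom A U₀ m hm).hom (MonoidAlgebra.single ((1 : GQ) : GQ ⧸ U₀) (1 : ZMod p)) = m := by
  show orbitLin A U₀ m hm (MonoidAlgebra.single ((1 : GQ) : GQ ⧸ U₀) (1 : ZMod p)) = m
  rw [orbitLin_single, one_smul, map_one, Module.End.one_apply]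

end Orbit

/-! ### Descent of morphisms to a level -/

/-- a morphism of `G_ℚ`-representations, seen on the descents to `G_ℚ ⧸ V` -/
def levelHom {A B : Rep.{0} (ZMod p) GQ} (f : A ⟶ B) (V : Subgroup GQ) [V.Normal]
    (hA : V ≤ A.ρ.ker) (hB : V ≤ B.ρ.ker) : levelRep A V hA ⟶ levelRep B V hB :=
  Rep.ofHom (ρ := (levelRep A V hA).ρ) (σ := (levelRep B V hB).ρ) ⟨f.hom.toLinearMap, fun γ => by
    induction γ using QuotientGroup.induction_on with | H g =>
    exact f.hom.isIntertwining' g⟩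

lemma levelHom_apply {A B : Rep.{0} (ZMod p) GQ} (f : A ⟶ B) (V : Subgroup GQ) [V.Normal]
    (hA : V ≤ A.ρ.ker) (hB : V ≤ B.ρ.ker) (a : A) :
    (levelHom f V hA hB).hom a = f.hom a := rfl

/-- a subgroup of a trivialising subgroup is in the kernel -/
lemma le_ker {A : Rep.{0} (ZMod p) GQ} {U₀ V : Subgroup GQ} (hVU : V ≤ U₀)
    (hA : ∀ s ∈ U₀, A.ρ s = 1) : V ≤ A.ρ.ker := fun s hs => MonoidHom.mem_ker.2 (hA s (hVU hs))

/-- **every element of `A_V` is hit by a morphism from `(𝔽_p[G/U₀])_V`** -/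
theorem exists_levelHom (A : Rep.{0} (ZMod p) GQ) {U₀ V : Subgroup GQ} [V.Normal]
    (hVU : V ≤ U₀) (hA : ∀ s ∈ U₀, A.ρ s = 1) (hP : ∀ s ∈ U₀, (perm p U₀).ρ s = 1)
    (m : levelRep A V (le_ker hVU hA)) :
    ∃ g : levelRep (perm p U₀) V (le_ker hVU hP) ⟶ levelRep A V (le_ker hVU hA),
      g.hom (MonoidAlgebra.single ((1 : GQ) : GQ ⧸ U₀) (1 : ZMod p)) = m := by
  have hm : ∀ s ∈ U₀, A.ρ s m = m := fun s hs => by rw [hA s hs]; rfl
  exact ⟨levelHom (orbitHom A U₀ m hm) V _ _, orbitHom_apply_one A U₀ m hm⟩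

/-! ### The two per-level identities and the bridge -/

variable (p) (S : Finset Nat.Primes)

/-- the decomposition groups of `G_ℚ ⧸ V` at the primes of `S` -/
abbrev DV (V : Subgroup GQ) [V.Normal] : ↥S → Subgroup (GQ ⧸ V) :=
  fun q => decompImage (QuotientGroup.mk' V) q.1

/-- `μ_p` descended to `G_ℚ ⧸ V` -/
abbrev muV {U₀ : Subgroup GQ} (V : Subgroup GQ) [V.Normal] (hVU : V ≤ U₀)
    (hμ : ∀ s ∈ U₀, (mu p).ρ s = 1) : Rep.{0} (ZMod p) (GQ ⧸ V) :=
  levelRep (mu p) V (le_ker hVU hμ)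

/-- **The finite-level identity (E)** at the level `V ≤ U₀`. -/
def LevelIdentity (U₀ V : Subgroup GQ) [V.Normal] (hVU : V ≤ U₀)
    (hμ : ∀ s ∈ U₀, (mu p).ρ s = 1) : Prop :=
  ∃ (I : Rep.{0} (ZMod p) (GQ ⧸ V)) (_ : Module.Finite (ZMod p) I)
    (α : ∀ q : ↥S, FormalPT.CoindZ (DV S V) (muV p V hVU hμ) q ⟶ I),
    ∀ (A : Rep.{0} (ZMod p) GQ) [FiniteDimensional (ZMod p) A] (hA : ∀ s ∈ U₀, A.ρ s = 1),
      Module.Finite (ZMod p) ↥(Sha₂ S A) ∧
      finrank (ZMod p) ↥(Sha₂ S A) =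
        finrank (ZMod p) ↥(FormalPT.sha1Fin (DV S V) (levelRep A V (le_ker hVU hA))
          (muV p V hVU hμ)) +
        finrank (ZMod p) ((levelRep A V (le_ker hVU hA) ⟶ I) ⧸
          FormalPT.HomB (levelRep A V (le_ker hVU hA)) α)

/-- **The coefficient identity (W4a)** at the level `V ≤ U₀`. -/
def CoeffIdentity (U₀ V : Subgroup GQ) [V.Normal] (hVU : V ≤ U₀)
    (hμ : ∀ s ∈ U₀, (mu p).ρ s = 1) : Prop :=
  ∀ (A : Rep.{0} (ZMod p) GQ) [FiniteDimensional (ZMod p) A] (hA : ∀ s ∈ U₀, A.ρ s = 1),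
    finrank (ZMod p) ↥(sha1Fin S (QuotientGroup.mk' V)
      (levelRep (A.dualTwist (cycloChar p)) V
        (le_ker hVU fun s hs => Final.dualTwist_ρ_eq_one A (hA s hs) (hμ s hs)))) =
    finrank (ZMod p) ↥(FormalPT.sha1Fin (DV S V) (levelRep A V (le_ker hVU hA))
      (muV p V hVU hμ))

variable {p}

/-- **THE BRIDGE.** -/
theorem perLevel_of_identities (hp2 : p ≠ 2) {U₀ : Subgroup GQ}
    (hU₀ : U₀ ∈ (globalLevels S).levels) (hμ : ∀ s ∈ U₀, (mu p).ρ s = 1)
    (self : Nonempty ((perm p U₀).dualTwist (cycloChar p) ≅ perm p U₀))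
    (hE : ∀ (V : Subgroup GQ) (hV : V ∈ (globalLevels S).levels) (hVU : V ≤ U₀),
      haveI := (globalLevels S).normal V hV
      LevelIdentity p S U₀ V hVU hμ)
    (hC : ∀ (V : Subgroup GQ) (hV : V ∈ (globalLevels S).levels) (hVU : V ≤ U₀),
      haveI := (globalLevels S).normal V hV
      CoeffIdentity p S U₀ V hVU hμ) : Final.PerLevel p S U₀ := by
  haveI := (globalLevels S).normal U₀ hU₀
  haveI := (globalLevels S).finiteIndex U₀ hU₀
  haveI := Final.finiteDimensional_perm p U₀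
  have hperm : ∀ s ∈ U₀, (perm p U₀).ρ s = 1 := Final.perm_ρ_eq_one p U₀
  -- dimension of `shaLevel` in `FormalPT` terms
  have hsha : ∀ (V : Subgroup GQ) (hV : V ∈ (globalLevels S).levels) (hVU : V ≤ U₀)
      (A : Rep.{0} (ZMod p) GQ) [FiniteDimensional (ZMod p) A] (hA : ∀ s ∈ U₀, A.ρ s = 1),
      haveI := (globalLevels S).normal V hV
      finrank (ZMod p) ↥(shaLevel S (A.dualTwist (cycloChar p)) V) =
        finrank (ZMod p) ↥(FormalPT.sha1Fin (DV S V) (levelRep A V (le_ker hVU hA))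
          (muV p V hVU hμ)) := by
    intro V hV hVU A _ hA
    haveI := (globalLevels S).normal V hV
    rw [← hC V hV hVU A hA]
    exact finrank_shaLevel_eq S hp2 (A.dualTwist (cycloChar p)) hV _
  refine ⟨self, fun A _ hA => ?_, fun A _ hA V hV hVU => ?_, fun A _ hA V hV hVU h0 => ?_⟩
  · obtain ⟨I, _, α, h⟩ := hE U₀ hU₀ le_rfl
    exact (h A hA).1
  · haveI := (globalLevels S).normal V hV
    obtain ⟨I, _, α, h⟩ := hE V hV hVU
    rw [hsha V hV hVU A hA, (h A hA).2]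
    exact Nat.le_add_right _ _
  · haveI := (globalLevels S).normal V hV
    obtain ⟨I, hI, α, h⟩ := hE V hV hVU
    haveI := hI
    rw [hsha V hV hVU (perm p U₀) hperm] at h0
    rw [hsha V hV hVU A hA]
    -- no defect for the permutation module
    have hd0 : finrank (ZMod p) ((levelRep (perm p U₀) V (le_ker hVU hperm) ⟶ I) ⧸
        FormalPT.HomB (levelRep (perm p U₀) V (le_ker hVU hperm)) α) = 0 := by
      have := (h (perm p U₀) hperm).2
      omega
    haveI : Module.Finite (ZMod p) (levelRep (perm p U₀) V (le_ker hVU hperm)) :=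
      inferInstanceAs (Module.Finite (ZMod p) (perm p U₀))
    haveI : Module.Finite (ZMod p) (levelRep A V (le_ker hVU hA)) :=
      inferInstanceAs (Module.Finite (ZMod p) A)
    have htop := (HomBTop.finrank_quot_homB_eq_zero_iff α _).1 hd0
    have htopA : FormalPT.HomB (levelRep A V (le_ker hVU hA)) α = ⊤ :=
      HomBTop.homB_eq_top_of_gen α _ (exists_levelHom A hVU hA hperm) htop
    have hdA := (HomBTop.finrank_quot_homB_eq_zero_iff α (levelRep A V (le_ker hVU hA))).2 htopA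
    have := (h A hA).2
    omega

/-- **The top statement (count form) from the two per-level identities and self-duality.** -/
theorem topStatementCount_of_identities
    (H : ∀ (p : ℕ) [Fact p.Prime], p ≠ 2 → ∀ S : Finset Nat.Primes, pPrime p ∈ S →
      PlugsCountL p S → ∀ U₀ ∈ (globalLevels S).levels, ∀ hμ : ∀ s ∈ U₀, (mu p).ρ s = 1,
        Nonempty ((perm p U₀).dualTwist (cycloChar p) ≅ perm p U₀) ∧
        ∀ (V : Subgroup GQ) (hV : V ∈ (globalLevels S).levels) (hVU : V ≤ U₀),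
          haveI := (globalLevels S).normal V hV
          LevelIdentity p S U₀ V hVU hμ ∧ CoeffIdentity p S U₀ V hVU hμ) :
    TopStatementCount :=
  Final.topStatementCount_of_perLevel fun p _ hp2 S hpS hplugs U₀ hU₀ hμ =>
    perLevel_of_identities S hp2 hU₀ hμ (H p hp2 S hpS hplugs U₀ hU₀ hμ).1
      (fun V hV hVU => ((H p hp2 S hpS hplugs U₀ hU₀ hμ).2 V hV hVU).1)
      (fun V hV hVU => ((H p hp2 S hpS hplugs U₀ hU₀ hμ).2 V hV hVU).2)

end Fermat.Agent.S55.FormalTop25.Bridge
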