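/-
S55 / TOP-W55, step T6 (helper25), abstract half: at ONE finite level, the dual of the kernel of
the total localisation map is the finite-level `Ш¹` of helper55's `FormalPT`.

Inputs (all produced by the other formal leaves):
* `hE : FormalPT.ExactE α`   (T4: `0 → Z → ⊕_v coind_{D_v} Z → I` exact),
* `hF : FormalPT.HomB M α = ⊤` (T5: every morphism `M ⟶ I` has values in the image of `⊕ coind`),
* `Φ : Dual X ≃ (M ⟶ I)`      (T1: Eilenberg–Watts, `X = H²(G_S, M)`),
* `hP` : the range of `FormalPT.Pmap` is the image under `Φ` of the functionals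
  `∑_v y_v ∘ loc_v` (T3 + T4: local duality is onto + `Pmap_eq`).
Output: `Dual (⨅ v, ker (loc v)) ≃ FormalPT.sha1Fin D M Z`.
Mathlib + `EW55/FormalPT` only.
-/
import Fermat.Agent.S55.EW55.FormalPT

set_option autoImplicit false

open CategoryTheory groupCohomology

noncomputable section

namespace Fermat.Agent.S55.FormalTop25.DualSha

open Fermat.Agent.S55.EW55

section LinearAlgebra

variable {k : Type*} [Field k] {ι : Type*} [Fintype ι]
  {X : Type*} [AddCommGroup X] [Module k X]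
  {Y : ι → Type*} [∀ v, AddCommGroup (Y v)] [∀ v, Module k (Y v)]

/-- the functional `∑_v y_v ∘ loc_v` on `X`. -/
def sumDual (loc : ∀ v, X →ₗ[k] Y v) : (∀ v, Module.Dual k (Y v)) →ₗ[k] Module.Dual k X where
  toFun y := ∑ v, (y v) ∘ₗ (loc v)
  map_add' y y' := by
    simp only [Pi.add_apply, LinearMap.add_comp, Finset.sum_add_distrib]
  map_smul' c y := by
    simp only [Pi.smul_apply, LinearMap.smul_comp, Finset.smul_sum, RingHom.id_apply]

lemma sumDual_apply (loc : ∀ v, X →ₗ[k] Y v) (y : ∀ v, Module.Dual k (Y v)) (x : X) :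
    sumDual loc y x = ∑ v, y v (loc v x) := by
  simp [sumDual, LinearMap.sum_apply]

/-- the range of `sumDual loc` is the annihilator of the common kernel of the `loc v`. -/
theorem range_sumDual (loc : ∀ v, X →ₗ[k] Y v) :
    LinearMap.range (sumDual loc) = (⨅ v, LinearMap.ker (loc v)).dualAnnihilator := by
  classical
  have hker : LinearMap.ker (LinearMap.pi loc) = ⨅ v, LinearMap.ker (loc v) :=
    LinearMap.ker_pi loc
  rw [← hker, ← LinearMap.range_dualMap_eq_dualAnnihilator_ker]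
  apply le_antisymm
  · rintro _ ⟨y, rfl⟩
    refine ⟨∑ v, (y v) ∘ₗ (LinearMap.proj v), ?_⟩
    apply LinearMap.ext; intro x
    rw [LinearMap.dualMap_apply, sumDual_apply, LinearMap.sum_apply]
    rfl
  · rintro _ ⟨f, rfl⟩
    refine ⟨fun v => f ∘ₗ (LinearMap.single k Y v), ?_⟩
    apply LinearMap.ext; intro x
    rw [sumDual_apply, LinearMap.dualMap_apply]
    have hx : LinearMap.pi loc x = ∑ v, LinearMap.single k Y v (loc v x) := by
      ext w
      simp [Finset.sum_apply, Pi.single_apply]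
    rw [hx, map_sum]
    rfl

end LinearAlgebra

variable {k : Type} [Field k] {Γ : Type} [Group Γ] {ι : Type} [Fintype ι] [Nonempty ι]
  {D : ι → Subgroup Γ} {M Z I : Rep.{0} k Γ} {α : ∀ v, FormalPT.CoindZ D Z v ⟶ I}
  {X : Type} [AddCommGroup X] [Module k X]
  {Y : ι → Type} [∀ v, AddCommGroup (Y v)] [∀ v, Module k (Y v)]

/-- **T6, abstract form.** The dual of the kernel of the total localisation map is the
finite-level `Ш¹`. -/
theorem nonempty_dualKer_equiv_sha1Fin (hE : FormalPT.ExactE α) (hF : FormalPT.HomB M α = ⊤)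
    (loc : ∀ v, X →ₗ[k] Y v) (Φ : Module.Dual k X ≃ₗ[k] (M ⟶ I))
    (hP : LinearMap.range (FormalPT.Pmap (M := M) hE) =
      (LinearMap.range (sumDual loc)).map (Φ : Module.Dual k X →ₗ[k] (M ⟶ I))) :
    Nonempty (Module.Dual k ↥(⨅ v, LinearMap.ker (loc v)) ≃ₗ[k] ↥(FormalPT.sha1Fin D M Z)) := by
  obtain ⟨δ, hker, hrange, -⟩ := FormalPT.exists_delta_of_top (M := M) hE hF
  set K : Submodule k X := ⨅ v, LinearMap.ker (loc v) with hK
  -- `Dual K ≃ Dual X ⧸ ann K`
  have e1 : (Module.Dual k X ⧸ K.dualAnnihilator) ≃ₗ[k] Module.Dual k ↥K :=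
    Subspace.quotAnnihilatorEquiv K
  -- `Dual X ⧸ ann K ≃ (M ⟶ I) ⧸ ker δ`
  have hmap : K.dualAnnihilator.map (Φ : Module.Dual k X →ₗ[k] (M ⟶ I)) = LinearMap.ker δ := by
    rw [hker, hP, range_sumDual]
  have e2 : (Module.Dual k X ⧸ K.dualAnnihilator) ≃ₗ[k] ((M ⟶ I) ⧸ LinearMap.ker δ) :=
    Submodule.Quotient.equiv _ _ Φ hmap
  -- `(M ⟶ I) ⧸ ker δ ≃ range δ = sha1Fin`
  have e3 : ((M ⟶ I) ⧸ LinearMap.ker δ) ≃ₗ[k] ↥(LinearMap.range δ) :=
    LinearMap.quotKerEquivRange δ
  have e4 : ↥(LinearMap.range δ) ≃ₗ[k] ↥(FormalPT.sha1Fin D M Z) := LinearEquiv.ofEq _ _ hrange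
  exact ⟨e1.symm ≪≫ₗ e2 ≪≫ₗ e3 ≪≫ₗ e4⟩

/-- Consequence for dimensions: if the finite-level `Ш¹` is finite-dimensional, so is the kernel of
the localisation map, with the same dimension. -/
theorem finrank_ker_eq_finrank_sha1Fin (hE : FormalPT.ExactE α) (hF : FormalPT.HomB M α = ⊤)
    (loc : ∀ v, X →ₗ[k] Y v) (Φ : Module.Dual k X ≃ₗ[k] (M ⟶ I))
    (hP : LinearMap.range (FormalPT.Pmap (M := M) hE) =
      (LinearMap.range (sumDual loc)).map (Φ : Module.Dual k X →ₗ[k] (M ⟶ I)))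
    [Module.Finite k ↥(FormalPT.sha1Fin D M Z)] :
    Module.Finite k ↥(⨅ v, LinearMap.ker (loc v)) ∧
      Module.finrank k ↥(⨅ v, LinearMap.ker (loc v)) =
        Module.finrank k ↥(FormalPT.sha1Fin D M Z) := by
  obtain ⟨e⟩ := nonempty_dualKer_equiv_sha1Fin hE hF loc Φ hP
  haveI : Module.Finite k (Module.Dual k ↥(⨅ v, LinearMap.ker (loc v))) :=
    Module.Finite.equiv e.symm
  have hfin : Module.Finite k ↥(⨅ v, LinearMap.ker (loc v)) :=
    (Module.finite_dual_iff k).1 inferInstance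
  refine ⟨hfin, ?_⟩
  rw [← e.finrank_eq, Subspace.dual_finrank_eq]

end Fermat.Agent.S55.FormalTop25.DualSha

end
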