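/-
S55 TOP-W55 (helper25): THE ABSTRACT COUNT at one finite level — the general (defect) form of
`DualSha.finrank_ker_eq_finrank_sha1Fin`, i.e. the field `count` of helper55's `LevelData.Data` as
pure linear algebra on `FormalPT`.

Inputs: `hE : FormalPT.ExactE α`; a space `X` (think `H²(G_S, M)`), maps `loc v : X → Y v`
(the localisations), `Φ : Dual X ≃ (M ⟶ I)` (Eilenberg–Watts) and
`hP : range (Pmap hE) = Φ (range (sumDual loc))` (local duality is onto + `Pmap_eq`); `Hom_Γ(M, I)`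
finite-dimensional.  Output:

  `dim (⨅ v, ker (loc v)) = dim FormalPT.sha1Fin D M Z + dim ((M ⟶ I) ⧸ HomB M α)`.

Mathlib + `EW55/FormalPT` + `FormalTop25/DualSha` only.
-/
import Fermat.Agent.S55.FormalTop25.DualSha

set_option autoImplicit false

open CategoryTheory groupCohomology Module

noncomputable section

namespace Fermat.Agent.S55.FormalTop25.Count

open Fermat.Agent.S55.EW55 Fermat.Agent.S55.FormalTop25.DualSha

variable {k : Type} [Field k] {Γ : Type} [Group Γ] {ι : Type} [Fintype ι] [Nonempty ι]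
  {D : ι → Subgroup Γ} {M Z I : Rep.{0} k Γ} {α : ∀ v, FormalPT.CoindZ D Z v ⟶ I}
  {X : Type} [AddCommGroup X] [Module k X]
  {Y : ι → Type} [∀ v, AddCommGroup (Y v)] [∀ v, Module k (Y v)]

/-- the image of `Pmap` consists of morphisms with values in `B` -/
lemma range_Pmap_le_homB (hE : FormalPT.ExactE α) :
    LinearMap.range (FormalPT.Pmap (M := M) hE) ≤ FormalPT.HomB M α := by
  rintro _ ⟨n, rfl⟩
  exact FormalPT.Psi_mem_HomB hE _

/-- **The abstract count (defect form).** -/
theorem finrank_ker_eq_add (hE : FormalPT.ExactE α) (loc : ∀ v, X →ₗ[k] Y v)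
    (Φ : Module.Dual k X ≃ₗ[k] (M ⟶ I))
    (hP : LinearMap.range (FormalPT.Pmap (M := M) hE) =
      (LinearMap.range (sumDual loc)).map (Φ : Module.Dual k X →ₗ[k] (M ⟶ I)))
    [Module.Finite k (M ⟶ I)] :
    Module.Finite k ↥(⨅ v, LinearMap.ker (loc v)) ∧
      finrank k ↥(⨅ v, LinearMap.ker (loc v)) =
        finrank k ↥(FormalPT.sha1Fin D M Z) + finrank k ((M ⟶ I) ⧸ FormalPT.HomB M α) := by
  set K : Submodule k X := ⨅ v, LinearMap.ker (loc v) with hK
  set R : Submodule k (M ⟶ I) := LinearMap.range (FormalPT.Pmap (M := M) hE) with hR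
  set B : Submodule k (M ⟶ I) := FormalPT.HomB M α with hB
  have hRB : R ≤ B := range_Pmap_le_homB hE
  -- `Dual K ≃ Dual X ⧸ ann K ≃ (M ⟶ I) ⧸ R`
  have e1 : (Module.Dual k X ⧸ K.dualAnnihilator) ≃ₗ[k] Module.Dual k ↥K :=
    Subspace.quotAnnihilatorEquiv K
  have hmap : K.dualAnnihilator.map (Φ : Module.Dual k X →ₗ[k] (M ⟶ I)) = R := by
    rw [hP, range_sumDual]
  have e2 : (Module.Dual k X ⧸ K.dualAnnihilator) ≃ₗ[k] ((M ⟶ I) ⧸ R) :=
    Submodule.Quotient.equiv _ _ Φ hmap
  have e : Module.Dual k ↥K ≃ₗ[k] ((M ⟶ I) ⧸ R) := e1.symm ≪≫ₗ e2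
  haveI : Module.Finite k (Module.Dual k ↥K) := Module.Finite.equiv e.symm
  have hfin : Module.Finite k ↥K := (Module.finite_dual_iff k).1 inferInstance
  refine ⟨hfin, ?_⟩
  -- dimensions
  have h1 : finrank k ↥K = finrank k ((M ⟶ I) ⧸ R) := by
    rw [← e.finrank_eq, Subspace.dual_finrank_eq]
  have h2 := Submodule.finrank_quotient_add_finrank R
  have h3 := Submodule.finrank_quotient_add_finrank B
  have h4 := Submodule.finrank_quotient_add_finrank (R.comap B.subtype)
  have h5 : finrank k ↥(R.comap B.subtype) = finrank k ↥R :=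
    (Submodule.comapSubtypeEquivOfLe hRB).finrank_eq
  have h6 : finrank k (↥B ⧸ R.comap B.subtype) = finrank k ↥(FormalPT.sha1Fin D M Z) :=
    (FormalPT.quotEquiv (M := M) hE).finrank_eq
  omega

end Fermat.Agent.S55.FormalTop25.Count
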